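import Mathlib
import Fermat.Prelude.Thm_UpperHalfPlane_qCoeff_heckeT
import Fermat.Prelude.Thm_ModularForm_heckeT_slash_eq_self_of_mem_Gamma0
import Fermat.Prelude.Thm_ModularForm_mdifferentiable_heckeT
import Fermat.Prelude.Thm_ModularForm_isBoundedAtImInfty_heckeT
import Fermat.Prelude.Thm_ModularForm_periodic_heckeT_comp_ofComplex
import Fermat.Agent.ProgramR.QExp.JExp
import Fermat.Prelude.Def_ModularCurve_LaurentCoeff

set_option autoImplicit false
noncomputable section

namespace Fermat.Agent.S28lib.BrickB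

open UpperHalfPlane ModularForm MatrixGroups CongruenceSubgroup Filter Topology Manifold
open Fermat.Agent.ProgramR Fermat.Agent.ProgramR.LevelOne Fermat.Agent.ProgramR.QExp

/-- `Δ^m` as a function. -/
def dPow (m : ℕ) : ℍ → ℂ := fun z => ModularForm.discriminant z ^ m

lemma dPow_smul (m : ℕ) (γ : SL(2, ℤ)) (z : ℍ) :
    dPow m (γ • z) = denom γ z ^ (12 * (m : ℤ)) * dPow m z := by
  simp only [dPow]
  rw [discriminant_smul, mul_pow, ← zpow_natCast (denom γ z ^ (12 : ℤ)) m, ← zpow_mul]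

lemma dPow_slash (m : ℕ) (γ : SL(2, ℤ)) : dPow m ∣[12 * (m : ℤ)] γ = dPow m :=
  slash_eq_of_forall_smul (dPow_smul m) γ

lemma dPow_slash_GL (m : ℕ) : ∀ γ ∈ (CongruenceSubgroup.Gamma0 1 : Subgroup (GL (Fin 2) ℝ)),
    SlashAction.map (12 * (m:ℤ)) γ (dPow m) = dPow m := by
  rintro γ ⟨g, -, rfl⟩
  exact dPow_slash m g

lemma dPow_ne_zero (m : ℕ) (z : ℍ) : dPow m z ≠ 0 := pow_ne_zero _ (discriminant_ne_zero z)

lemma isHolPerBdd_discriminant : IsHolPerBdd 1 (fun τ : ℍ => ModularForm.discriminant τ) :=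
  isHolPerBdd_of_modularForm (CuspForm.discriminant : CuspForm 𝒮ℒ 12)

lemma dPow_eq_pow (m : ℕ) : dPow m = (fun τ : ℍ => ModularForm.discriminant τ) ^ m := rfl

lemma isHolPerBdd_dPow (m : ℕ) : IsHolPerBdd 1 (dPow m) := by
  rw [dPow_eq_pow]; exact isHolPerBdd_discriminant.pow m

lemma qExpansion_dPow (m : ℕ) : qExpansion 1 (dPow m) = (PowerSeries.X * etaProdC ^ 24) ^ m := by
  rw [dPow_eq_pow, qExpansion_pow one_pos isHolPerBdd_discriminant, qExpansion_discriminant]

/-- The Hecke transform `T_p (Δ^m)` in weight `12 m`. -/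
def heckeD (p m : ℕ) : ℍ → ℂ := ModularForm.heckeT (12 * (m : ℤ)) p (dPow m)

lemma heckeD_slash (p m : ℕ) (hp : p.Prime) (γ : SL(2, ℤ)) :
    heckeD p m ∣[12 * (m : ℤ)] γ = heckeD p m := by
  have h := ModularForm.heckeT_slash_eq_self_of_mem_Gamma0 (N := 1) (12 * (m : ℤ)) hp
    (by simpa using hp.one_lt.ne') (dPow_slash_GL m) (γ : GL (Fin 2) ℝ) ⟨γ, by rw [SetLike.mem_coe, Gamma0_mem]; exact Subsingleton.elim (α := ZMod 1) _ _, rfl⟩
  exact h

lemma heckeD_smul (p m : ℕ) (hp : p.Prime) (γ : SL(2, ℤ)) (z : ℍ) :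
    heckeD p m (γ • z) = denom γ z ^ (12 * (m : ℤ)) * heckeD p m z := by
  have h := congrFun (heckeD_slash p m hp γ) z
  rw [slash_action_eq'_iff] at h
  exact h

lemma isHolPerBdd_heckeD (p m : ℕ) : IsHolPerBdd 1 (heckeD p m) where
  holo := ModularForm.mdifferentiable_heckeT (isHolPerBdd_dPow m).holo _ _
  periodic := ModularForm.periodic_heckeT_comp_ofComplex (isHolPerBdd_dPow m).periodic _ _
  bdd := ModularForm.isBoundedAtImInfty_heckeT (isHolPerBdd_dPow m).bdd _ _

lemma qExpansion_heckeD_coeff (p m : ℕ) (hp : p ≠ 0) (n : ℕ) :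
    (qExpansion 1 (heckeD p m)).coeff n =
      ModularForm.coeffHeckeT (12 * (m : ℤ)) p
        (fun i => ((PowerSeries.X * etaProdC ^ 24) ^ m : PowerSeries ℂ).coeff i) n := by
  have h := UpperHalfPlane.qCoeff_heckeT (isHolPerBdd_dPow m).periodic (isHolPerBdd_dPow m).holo
    (isHolPerBdd_dPow m).bdd (12 * (m : ℤ)) hp n
  simp only [ModularFormClass.qCoeff] at h
  rw [heckeD, h]
  congr 1
  funext i
  rw [ModularFormClass.qCoeff, qExpansion_dPow]


/-- `p T_p(Δ^m) / Δ^m` is a polynomial in `j`. -/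
theorem exists_poly_heckeD (p m : ℕ) (hp : p.Prime) :
    ∃ P : Polynomial ℂ, P.natDegree ≤ m ∧
      ∀ z : ℍ, (p : ℂ) * heckeD p m z = P.eval (jInv z) * dPow m z := by
  obtain ⟨P, hP, hPz⟩ := exists_polynomial_of_invariant m
    (fun z => (p : ℂ) * heckeD p m z / dPow m z)
    (((mdifferentiable_const (c := (p : ℂ))).mul (isHolPerBdd_heckeD p m).holo).div
      (isHolPerBdd_dPow m).holo (dPow_ne_zero m))
    (fun γ z => by
      have hd : denom γ z ^ (12 * (m : ℤ)) ≠ 0 := zpow_ne_zero _ (denom_ne_zero _ _)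
      have h0 := dPow_ne_zero m z
      simp only [heckeD_smul p m hp, dPow_smul]
      field_simp)
    (by
      have hb : IsBoundedAtImInfty (fun z : ℍ => (p : ℂ) * heckeD p m z) :=
        (Filter.const_boundedAtFilter _ (p : ℂ)).mul (isHolPerBdd_heckeD p m).bdd
      refine Asymptotics.IsBigO.congr_left hb fun z => ?_
      have h0 := dPow_ne_zero m z
      show (p : ℂ) * heckeD p m z = (p : ℂ) * heckeD p m z / dPow m z * ModularForm.discriminant z ^ m
      rw [show ModularForm.discriminant z ^ m = dPow m z from rfl]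
      field_simp)
  refine ⟨P, hP, fun z => ?_⟩
  rw [← hPz z, div_mul_cancel₀ _ (dPow_ne_zero m z)]


/-- constants as elements of `merRing 1`. -/
def constMer : ℂ →+* ↥(merRing 1 one_pos) where
  toFun c := ⟨fun _ => c, 0, IsMeroAtInfty.of_isHolPerBdd (IsHolPerBdd.const 1 c)⟩
  map_one' := rfl
  map_mul' _ _ := rfl
  map_zero' := rfl
  map_add' _ _ := rfl

/-- `j` as an element of `merRing 1`. -/
def jMer : ↥(merRing 1 one_pos) := ⟨jInv, 1, isMeroAtInfty_jInv⟩

/-- polynomials in `j` as elements of `merRing 1`. -/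
def polyMer : Polynomial ℂ →+* ↥(merRing 1 one_pos) := Polynomial.eval₂RingHom constMer jMer

lemma polyMer_apply (P : Polynomial ℂ) (z : ℍ) :
    (polyMer P : ℍ → ℂ) z = P.eval (jInv z) := by
  induction P using Polynomial.induction_on' with
  | add P Q hP hQ =>
    rw [map_add, Polynomial.eval_add, ← hP, ← hQ]; rfl
  | monomial n a =>
    rw [polyMer, Polynomial.coe_eval₂RingHom, Polynomial.eval₂_monomial, Polynomial.eval_monomial]
    rfl

lemma laurentExpHom_polyMer (P : Polynomial ℂ) :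
    laurentExpHom 1 one_pos (polyMer P) = Polynomial.aeval (ModularCurve.jqModC ℂ) P := by
  have h : (laurentExpHom 1 one_pos).comp polyMer =
      (Polynomial.aeval (ModularCurve.jqModC ℂ) : Polynomial ℂ →ₐ[ℂ] LaurentSeries ℂ).toRingHom := by
    apply Polynomial.ringHom_ext
    · intro c
      simp only [RingHom.comp_apply, polyMer, Polynomial.coe_eval₂RingHom, Polynomial.eval₂_C,
        AlgHom.toRingHom_eq_coe, RingHom.coe_coe, Polynomial.aeval_C]
      rw [laurentExpHom_apply]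
      show laurentExp 1 (fun _ => c) = _
      rw [laurentExp_const one_pos, ModularCurve.algebraMap_laurentSeries_eq_single]
      rfl
    · simp only [RingHom.comp_apply, polyMer, Polynomial.coe_eval₂RingHom, Polynomial.eval₂_X,
        AlgHom.toRingHom_eq_coe, RingHom.coe_coe, Polynomial.aeval_X]
      rw [laurentExpHom_apply]
      exact laurentExp_jInv
  exact congrArg (fun f => f P) h


/-- The formal `Δ` over `ℂ` as a power series. -/
def deltaPS : PowerSeries ℂ := PowerSeries.X * etaProdC ^ 24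

/-- **Analytic input of brick B.** The formal series `p · T_p(Δ^m)` (weight `12 m`) is a
polynomial in `j` of degree at most `m`, times `Δ^m`. -/
theorem heckeD_laurent (p m : ℕ) (hp : p.Prime) :
    ∃ P : Polynomial ℂ, P.natDegree ≤ m ∧
      HahnSeries.ofPowerSeries ℤ ℂ (PowerSeries.mk fun n => (p : ℂ) *
        ModularForm.coeffHeckeT (12 * (m : ℤ)) p
          (fun i => (deltaPS ^ m : PowerSeries ℂ).coeff i) n)
      = Polynomial.aeval (ModularCurve.jqModC ℂ) P *
          HahnSeries.ofPowerSeries ℤ ℂ (deltaPS ^ m) := by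
  obtain ⟨P, hP, hPz⟩ := exists_poly_heckeD p m hp
  refine ⟨P, hP, ?_⟩
  set hM : ↥(merRing 1 one_pos) :=
    ⟨heckeD p m, 0, IsMeroAtInfty.of_isHolPerBdd (isHolPerBdd_heckeD p m)⟩ with hhM
  set dM : ↥(merRing 1 one_pos) :=
    ⟨dPow m, 0, IsMeroAtInfty.of_isHolPerBdd (isHolPerBdd_dPow m)⟩ with hdM
  have hid : constMer (p : ℂ) * hM = polyMer P * dM := by
    apply Subtype.ext
    funext z
    show (p : ℂ) * heckeD p m z = (polyMer P : ℍ → ℂ) z * dPow m z
    rw [polyMer_apply, hPz z]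
  have h1 := congrArg (laurentExpHom 1 one_pos) hid
  rw [map_mul, map_mul, laurentExpHom_polyMer] at h1
  have h2 : laurentExpHom 1 one_pos (constMer (p : ℂ)) = HahnSeries.C (p : ℂ) := by
    rw [laurentExpHom_apply]
    exact laurentExp_const one_pos _
  have h3 : laurentExpHom 1 one_pos hM =
      HahnSeries.ofPowerSeries ℤ ℂ (qExpansion 1 (heckeD p m)) := by
    rw [laurentExpHom_apply]
    exact laurentExp_of_isHolPerBdd one_pos (isHolPerBdd_heckeD p m)
  have h4 : laurentExpHom 1 one_pos dM = HahnSeries.ofPowerSeries ℤ ℂ (deltaPS ^ m) := by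
    rw [laurentExpHom_apply]
    show laurentExp 1 (dPow m) = _
    rw [laurentExp_of_isHolPerBdd one_pos (isHolPerBdd_dPow m), qExpansion_dPow, deltaPS]
  rw [h2, h3, h4] at h1
  rw [← h1, ← HahnSeries.ofPowerSeries_C, ← map_mul]
  congr 1
  ext n
  rw [PowerSeries.coeff_mk, PowerSeries.coeff_C_mul, qExpansion_heckeD_coeff p m hp.ne_zero n,
    deltaPS]

end Fermat.Agent.S28lib.BrickB
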