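import Mathlib
import Fermat.Prelude.Def_ModularCurve_X0ModL

set_option autoImplicit false
noncomputable section

namespace Fermat.Agent.S28lib.BrickB

open ModularCurve HahnSeries

/-! ### Newton: power sums in a subring closed under division give elementary symmetric
functions in the subring -/

theorem esymm_mem_of_psum_mem {A : Type*} [CommRing A] (B : Subring A)
    (hdiv : ∀ (n : ℕ) (x : A), 0 < n → (n : A) * x ∈ B → x ∈ B)
    {σ : Type*} [Fintype σ] (f : σ → A)
    (hps : ∀ j : ℕ, 0 < j → (∑ i, f i ^ j) ∈ B) (k : ℕ) :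
    (Finset.univ.val.map f).esymm k ∈ B := by
  classical
  induction k using Nat.strong_induction_on with
  | _ k ih =>
    rcases Nat.eq_zero_or_pos k with rfl | hk
    · simp [Multiset.esymm]
    · apply hdiv k _ hk
      have h := congrArg (MvPolynomial.aeval f) (MvPolynomial.mul_esymm_eq_sum σ ℤ k)
      simp only [map_mul, map_natCast, map_sum, map_pow, map_neg, map_one,
        MvPolynomial.aeval_esymm_eq_multiset_esymm, MvPolynomial.psum, MvPolynomial.aeval_X] at h
      rw [h]
      apply B.mul_mem (pow_mem (neg_mem B.one_mem) _)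
      apply B.sum_mem
      intro a ha
      obtain ⟨ha1, ha2⟩ := Finset.mem_filter.mp ha
      have hsum := Finset.HasAntidiagonal.mem_antidiagonal.mp ha1
      exact B.mul_mem (B.mul_mem (pow_mem (neg_mem B.one_mem) _) (ih a.1 ha2))
        (hps a.2 (by omega))


/-! ### Coefficient bookkeeping for Laurent series -/

section Coeff

variable (R : Type*) [CommRing R]

lemma algebraMap_eq_C (c : R) : algebraMap R (LaurentSeries R) c = HahnSeries.C c := by
  rw [HahnSeries.algebraMap_apply', show algebraMap R (PowerSeries R) c = PowerSeries.C c from rfl,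
    HahnSeries.ofPowerSeries_C]

lemma coeff_C_mul' (c : R) (x : LaurentSeries R) (n : ℤ) :
    (HahnSeries.C c * x).coeff n = c * x.coeff n := by
  rw [HahnSeries.C_mul_eq_smul, HahnSeries.coeff_smul, smul_eq_mul]

lemma coeff_jq_pow_eq_intCast (i : ℕ) (n : ℤ) :
    (jqModC R ^ i).coeff n = (((jqModC ℤ ^ i).coeff n : ℤ) : R) := by
  rw [← coeffMap_jqModC (Int.castRingHom R), ← map_pow, coeffMap_coeff]
  rfl

/-- The coefficient of `q^{-n}` in `P(j)` is the coefficient of `X^n` in `P`, if `deg P ≤ n`. -/
lemma coeff_aeval_jq_neg (P : Polynomial R) (n : ℕ) (hP : P.natDegree ≤ n) :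
    (Polynomial.aeval (jqModC R) P).coeff (-(n : ℤ)) = P.coeff n := by
  rw [Polynomial.aeval_eq_sum_range' (Nat.lt_succ_of_le hP)]
  simp only [Algebra.smul_def, algebraMap_eq_C]
  rw [HahnSeries.coeff_sum, Finset.sum_eq_single n]
  · rw [coeff_C_mul', coeff_jqModC_pow_self, mul_one]
  · intro i hi hin
    have hi' : i < n := lt_of_le_of_ne (Nat.lt_succ_iff.mp (Finset.mem_range.mp hi)) hin
    rw [coeff_C_mul', coeff_jqModC_pow_of_lt R (by omega), mul_zero]
  · intro h
    exact absurd (Finset.mem_range.mpr (Nat.lt_succ_self n)) h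

/-- **Coefficient descent.** If all Laurent coefficients of `P(j)` lie in an additive subgroup
`M` of `R` then so do all coefficients of `P`. -/
theorem coeff_mem_of_aeval_jq_coeff_mem (M : AddSubgroup R) :
    ∀ (n : ℕ) (P : Polynomial R), P.natDegree ≤ n →
      (∀ k : ℤ, (Polynomial.aeval (jqModC R) P).coeff k ∈ M) → ∀ i, P.coeff i ∈ M := by
  intro n
  induction n with
  | zero =>
    intro P hP h i
    rcases Nat.eq_zero_or_pos i with rfl | hi
    · have := h (-((0 : ℕ) : ℤ))
      rwa [coeff_aeval_jq_neg R P 0 hP] at this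
    · rw [Polynomial.coeff_eq_zero_of_natDegree_lt (by omega)]
      exact M.zero_mem
  | succ n ih =>
    intro P hP h i
    have hc : P.coeff (n + 1) ∈ M := by
      have := h (-((n + 1 : ℕ) : ℤ))
      rwa [coeff_aeval_jq_neg R P (n + 1) hP] at this
    set c := P.coeff (n + 1) with hcdef
    set Q : Polynomial R := P - Polynomial.C c * Polynomial.X ^ (n + 1) with hQ
    have hQdeg : Q.natDegree ≤ n := by
      rw [Polynomial.natDegree_le_iff_coeff_eq_zero]
      intro N hN
      rw [hQ, Polynomial.coeff_sub, Polynomial.coeff_C_mul, Polynomial.coeff_X_pow]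
      rcases eq_or_ne N (n + 1) with rfl | hne
      · simp [hcdef]
      · rw [if_neg hne, mul_zero, sub_zero]
        exact Polynomial.coeff_eq_zero_of_natDegree_lt (by omega)
    have hQM : ∀ k : ℤ, (Polynomial.aeval (jqModC R) Q).coeff k ∈ M := by
      intro k
      rw [hQ, map_sub, map_mul, Polynomial.aeval_C, map_pow, Polynomial.aeval_X, algebraMap_eq_C,
        HahnSeries.coeff_sub, coeff_C_mul', coeff_jq_pow_eq_intCast]
      refine M.sub_mem (h k) ?_
      rw [mul_comm, ← zsmul_eq_mul]
      exact M.zsmul_mem hc _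
    have hQi := ih Q hQdeg hQM i
    have : P.coeff i = Q.coeff i + (if i = n + 1 then c else 0) := by
      rw [hQ, Polynomial.coeff_sub, Polynomial.coeff_C_mul, Polynomial.coeff_X_pow]
      split_ifs <;> ring
    rw [this]
    refine M.add_mem hQi ?_
    split_ifs
    · exact hc
    · exact M.zero_mem


variable {R}

lemma coeff_qExpand_eq (p : ℕ) [NeZero p] (x : LaurentSeries R) (n : ℤ) :
    (qExpand R p x).coeff n = if (p : ℤ) ∣ n then x.coeff (n / p) else 0 := by
  split_ifs with h
  · obtain ⟨k, rfl⟩ := h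
    rw [qExpand_coeff_mul, Int.mul_ediv_cancel_left _ (by exact_mod_cast NeZero.ne p)]
  · exact qExpand_coeff_of_not_dvd p x h

lemma coeff_ofPowerSeries_eq (f : PowerSeries R) (n : ℤ) :
    (HahnSeries.ofPowerSeries ℤ R f).coeff n =
      if 0 ≤ n then PowerSeries.coeff n.toNat f else 0 := by
  split_ifs with hn
  · obtain ⟨k, rfl⟩ := Int.eq_ofNat_of_zero_le hn
    rw [Int.toNat_natCast, HahnSeries.ofPowerSeries_apply_coeff]
  · exact ofPowerSeries_coeff_of_neg f (not_le.mp hn)

lemma coeffMap_C {S : Type*} [CommRing S] (f : R →+* S) (c : R) :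
    coeffMap f (HahnSeries.C c) = HahnSeries.C (f c) := by
  rw [HahnSeries.C_apply, HahnSeries.C_apply, coeffMap_single]

lemma coeffMap_aeval {S : Type*} [CommRing S] (f : R →+* S) (y : LaurentSeries R)
    (P : Polynomial R) :
    coeffMap f (Polynomial.aeval y P) = Polynomial.aeval (coeffMap f y) (P.map f) := by
  induction P using Polynomial.induction_on' with
  | add P Q hP hQ => rw [map_add, map_add, hP, hQ, Polynomial.map_add, map_add]
  | monomial n a =>
    rw [Polynomial.aeval_monomial, Polynomial.map_monomial, Polynomial.aeval_monomial, map_mul,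
      map_pow, algebraMap_eq_C, algebraMap_eq_C, coeffMap_C]

end Coeff

end Fermat.Agent.S28lib.BrickB
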