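import Mathlib
import Fermat.Agent.S28lib.Defs
import Fermat.Agent.S28lib.BrickB.Generic
import Fermat.Agent.S28lib.BrickB.Analytic

set_option autoImplicit false
noncomputable section

namespace Fermat.Agent.S28lib.BrickB

open ModularCurve HahnSeries Fermat.Agent.S28lib

section General

variable (R : Type*) [CommRing R]

/-- The inverse of the `Δ`-series. -/
def DeltaInvQ : LaurentSeries R :=
  HahnSeries.single (-1 : ℤ) 1 *
    HahnSeries.ofPowerSeries ℤ R (dedekindEtaUnitInv.map (Int.castRingHom R))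

lemma DeltaQ_mul_DeltaInvQ : DeltaQ R * DeltaInvQ R = 1 := by
  rw [DeltaQ, DeltaInvQ]
  have h1 : HahnSeries.ofPowerSeries ℤ R (dedekindEtaUnit.map (Int.castRingHom R)) *
      HahnSeries.ofPowerSeries ℤ R (dedekindEtaUnitInv.map (Int.castRingHom R)) = 1 := by
    rw [← map_mul, ← map_mul, dedekindEtaUnit_mul_inv, map_one, map_one]
  have h2 : (HahnSeries.single (1 : ℤ) (1 : R) : LaurentSeries R) * HahnSeries.single (-1 : ℤ) 1 = 1 := by
    rw [HahnSeries.single_mul_single]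
    simp
  calc _ = ((HahnSeries.single (1 : ℤ) (1 : R) : LaurentSeries R) * HahnSeries.single (-1 : ℤ) 1) *
        (HahnSeries.ofPowerSeries ℤ R (dedekindEtaUnit.map (Int.castRingHom R)) *
          HahnSeries.ofPowerSeries ℤ R (dedekindEtaUnitInv.map (Int.castRingHom R))) := by ring
    _ = 1 := by rw [h1, h2, mul_one]

variable {R} in
lemma coeffMap_DeltaQ {S : Type*} [CommRing S] (f : R →+* S) :
    coeffMap f (DeltaQ R) = DeltaQ S := by
  rw [DeltaQ, DeltaQ, map_mul, coeffMap_single, map_one, coeffMap_ofPowerSeries,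
    ← RingHom.comp_apply (PowerSeries.map f) (PowerSeries.map (Int.castRingHom R)),
    ← PowerSeries.map_comp, RingHom.ext_int (f.comp (Int.castRingHom R)) (Int.castRingHom S)]

variable {R} in
lemma coeffMap_DeltaInvQ {S : Type*} [CommRing S] (f : R →+* S) :
    coeffMap f (DeltaInvQ R) = DeltaInvQ S := by
  rw [DeltaInvQ, DeltaInvQ, map_mul, coeffMap_single, map_one, coeffMap_ofPowerSeries,
    ← RingHom.comp_apply (PowerSeries.map f) (PowerSeries.map (Int.castRingHom R)),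
    ← PowerSeries.map_comp, RingHom.ext_int (f.comp (Int.castRingHom R)) (Int.castRingHom S)]

/-- `p^12 Δ(q^p)/Δ(q)` over `R`. -/
def gInf (p : ℕ) [NeZero p] : LaurentSeries R :=
  HahnSeries.C ((p : R) ^ 12) * (qExpand R p (DeltaQ R) * DeltaInvQ R)

variable {R} in
lemma coeffMap_gInf {S : Type*} [CommRing S] (f : R →+* S) (p : ℕ) [NeZero p] :
    coeffMap f (gInf R p) = gInf S p := by
  rw [gInf, gInf, map_mul, map_mul, coeffMap_C, coeffMap_qExpand, coeffMap_DeltaQ,
    coeffMap_DeltaInvQ, map_pow, map_natCast]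

end General

lemma DeltaInvQ_eq_inv (k : Type*) [Field k] : DeltaInvQ k = (DeltaQ k)⁻¹ :=
  eq_inv_of_mul_eq_one_right (DeltaQ_mul_DeltaInvQ k)

lemma gInf_eq_nuQ (k : Type*) [Field k] (p : ℕ) [NeZero p] :
    gInf k p = HahnSeries.C ((p : k) ^ 12) * nuQ k p := by
  rw [gInf, nuQ, DeltaInvQ_eq_inv]

/-- Root-of-unity filter. -/
lemma sum_twist_ofPowerSeries {R : Type*} [CommRing R] [IsDomain R] (p : ℕ) [NeZero p] (ζ : Rˣ)
    (hζ : IsPrimitiveRoot ζ p) (g : PowerSeries R) :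
    ∑ b ∈ Finset.range p, twist (ζ ^ b) (HahnSeries.ofPowerSeries ℤ R g) =
      qExpand R p (HahnSeries.ofPowerSeries ℤ R
        (PowerSeries.mk fun n => (p : R) * PowerSeries.coeff (n * p) g)) := by
  have hp0 : (p : ℤ) ≠ 0 := by exact_mod_cast NeZero.ne p
  ext n
  rw [HahnSeries.coeff_sum]
  simp only [twist_coeff]
  rw [← Finset.sum_mul, coeff_qExpand_eq]
  have hpow : ∀ b : ℕ, (((ζ ^ b) ^ n : Rˣ) : R) = ((ζ ^ n : Rˣ) : R) ^ b := by
    intro b
    rw [← Units.val_pow_eq_pow_val, ← zpow_natCast ζ b, ← zpow_mul, mul_comm, zpow_mul,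
      zpow_natCast]
  simp only [hpow]
  split_ifs with hdvd
  · obtain ⟨k, rfl⟩ := hdvd
    have h1 : ζ ^ ((p : ℤ) * k) = 1 := by
      rw [zpow_mul, zpow_natCast, hζ.pow_eq_one, one_zpow]
    rw [h1, Int.mul_ediv_cancel_left _ hp0]
    simp only [Units.val_one, one_pow, Finset.sum_const, Finset.card_range, nsmul_eq_mul, mul_one]
    rw [coeff_ofPowerSeries_eq, coeff_ofPowerSeries_eq]
    by_cases hk : 0 ≤ k
    · have hk' : 0 ≤ (p : ℤ) * k := mul_nonneg (by positivity) hk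
      rw [if_pos hk, if_pos hk', PowerSeries.coeff_mk]
      congr 2
      obtain ⟨k', rfl⟩ := Int.eq_ofNat_of_zero_le hk
      rw [Int.toNat_natCast, ← Nat.cast_mul, Int.toNat_natCast, mul_comm]
    · have hk' : ¬ 0 ≤ (p : ℤ) * k := by
        push Not at hk ⊢
        exact mul_neg_of_pos_of_neg (by positivity) hk
      rw [if_neg hk, if_neg hk', mul_zero]
  · have hne : ((ζ ^ n : Rˣ) : R) ≠ 1 := by
      intro h
      apply hdvd
      have : ζ ^ n = 1 := Units.ext (by simpa using h)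
      exact (hζ.zpow_eq_one_iff_dvd n).mp this
    have hpw : ((ζ ^ n : Rˣ) : R) ^ p = 1 := by
      rw [← Units.val_pow_eq_pow_val, ← zpow_natCast, ← zpow_mul, mul_comm, zpow_mul, zpow_natCast,
        hζ.pow_eq_one, one_zpow, Units.val_one]
    have hgeom := mul_geom_sum ((ζ ^ n : Rˣ) : R) p
    rw [hpw, sub_self] at hgeom
    rcases mul_eq_zero.mp hgeom with h | h
    · exact absurd (sub_eq_zero.mp h) hne
    · rw [h, zero_mul]

/-- Splitting the formal Hecke operator into its `U_p` and `V_p` parts. -/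
lemma ofPowerSeries_coeffHeckeT (p m : ℕ) [NeZero p] (hm : 0 < m) (g : PowerSeries ℂ) :
    HahnSeries.ofPowerSeries ℤ ℂ (PowerSeries.mk fun n => (p : ℂ) *
        ModularForm.coeffHeckeT (12 * (m : ℤ)) p (fun i => PowerSeries.coeff i g) n) =
      HahnSeries.ofPowerSeries ℤ ℂ
          (PowerSeries.mk fun n => (p : ℂ) * PowerSeries.coeff (n * p) g) +
        HahnSeries.C ((p : ℂ) ^ (12 * m)) * qExpand ℂ p (HahnSeries.ofPowerSeries ℤ ℂ g) := by
  have hp0 : (p : ℂ) ≠ 0 := by exact_mod_cast NeZero.ne p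
  have hppos : (0 : ℤ) < p := by exact_mod_cast NeZero.pos p
  have hpw : (p : ℂ) * (p : ℂ) ^ (12 * (m : ℤ) - 1) = (p : ℂ) ^ (12 * m) := by
    have h : (12 * (m : ℤ) - 1) = ((12 * m - 1 : ℕ) : ℤ) := by omega
    rw [h, zpow_natCast, ← pow_succ']
    congr 1
    omega
  ext n
  rw [HahnSeries.coeff_add, coeff_C_mul', coeff_qExpand_eq, coeff_ofPowerSeries_eq,
    coeff_ofPowerSeries_eq]
  by_cases hn : 0 ≤ n
  · obtain ⟨n', rfl⟩ := Int.eq_ofNat_of_zero_le hn
    rw [if_pos hn, if_pos hn, Int.toNat_natCast, PowerSeries.coeff_mk, PowerSeries.coeff_mk,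
      ModularForm.coeffHeckeT_apply, mul_add]
    congr 1
    by_cases hd : p ∣ n'
    · rw [if_pos hd, if_pos (Int.natCast_dvd_natCast.mpr hd), ← Int.natCast_div,
        HahnSeries.ofPowerSeries_apply_coeff, ← mul_assoc, hpw]
    · rw [if_neg hd, if_neg (fun h => hd (Int.natCast_dvd_natCast.mp h)), mul_zero, mul_zero]
  · rw [if_neg hn, if_neg hn, zero_add]
    split_ifs with hd
    · have : n / (p : ℤ) < 0 := Int.ediv_neg_of_neg_of_pos (not_le.mp hn) hppos
      rw [coeff_ofPowerSeries_eq, if_neg (not_le.mpr this), mul_zero]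
    · rw [mul_zero]


lemma DeltaQ_eq_ofPowerSeries : DeltaQ ℂ = HahnSeries.ofPowerSeries ℤ ℂ deltaPS := by
  rw [DeltaQ, deltaPS, map_mul, HahnSeries.ofPowerSeries_X, Fermat.Agent.ProgramR.QExp.etaProdC, dedekindEtaUnit,
    map_pow]

section Roots

variable (p : ℕ) [NeZero p] (ζ : ℂˣ)

/-- The formal roots of the modular equation of the unit: `none ↦ p^12 Δ(u^{p²})/Δ(u^p)`,
`some b ↦ Δ(ζ^b u)/Δ(u^p)`. -/
def rootFun : Option (Fin p) → LaurentSeries ℂ
  | none => qExpand ℂ p (gInf ℂ p)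
  | some b => twist (ζ ^ (b : ℕ)) (DeltaQ ℂ) * qExpand ℂ p (DeltaInvQ ℂ)

theorem psum_rootFun (hp : p.Prime) (hζ : IsPrimitiveRoot ζ p) (m : ℕ) (hm : 0 < m) :
    ∃ P : Polynomial ℂ,
      ∑ o, rootFun p ζ o ^ m = qExpand ℂ p (Polynomial.aeval (jqModC ℂ) P) := by
  obtain ⟨P, -, hP⟩ := heckeD_laurent p m hp
  refine ⟨P, ?_⟩
  rw [Fintype.sum_option]
  simp only [rootFun]
  have h1 : ∑ b : Fin p, (twist (ζ ^ (b : ℕ)) (DeltaQ ℂ) * qExpand ℂ p (DeltaInvQ ℂ)) ^ m =
      (∑ b ∈ Finset.range p, twist (ζ ^ b) (HahnSeries.ofPowerSeries ℤ ℂ (deltaPS ^ m))) *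
        qExpand ℂ p (DeltaInvQ ℂ ^ m) := by
    rw [Finset.sum_mul, Finset.sum_range]
    refine Finset.sum_congr rfl fun b _ => ?_
    rw [mul_pow, ← map_pow, ← map_pow, DeltaQ_eq_ofPowerSeries, ← map_pow]
  rw [h1, sum_twist_ofPowerSeries p ζ hζ, ← map_pow, ← map_mul, ← map_add]
  congr 1
  have h2 : gInf ℂ p ^ m = HahnSeries.C ((p : ℂ) ^ (12 * m)) *
      qExpand ℂ p (HahnSeries.ofPowerSeries ℤ ℂ (deltaPS ^ m)) * DeltaInvQ ℂ ^ m := by
    rw [gInf, mul_pow, mul_pow, ← map_pow, ← pow_mul, ← map_pow, DeltaQ_eq_ofPowerSeries,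
      ← map_pow, mul_assoc]
  have h3 := ofPowerSeries_coeffHeckeT p m hm (deltaPS ^ m)
  rw [hP] at h3
  have h4 : HahnSeries.ofPowerSeries ℤ ℂ (deltaPS ^ m) * DeltaInvQ ℂ ^ m = 1 := by
    rw [map_pow, ← DeltaQ_eq_ofPowerSeries, ← mul_pow, DeltaQ_mul_DeltaInvQ, one_pow]
  calc gInf ℂ p ^ m + HahnSeries.ofPowerSeries ℤ ℂ
          (PowerSeries.mk fun n => (p : ℂ) * PowerSeries.coeff (n * p) (deltaPS ^ m)) *
          DeltaInvQ ℂ ^ m
      = (HahnSeries.ofPowerSeries ℤ ℂ
          (PowerSeries.mk fun n => (p : ℂ) * PowerSeries.coeff (n * p) (deltaPS ^ m)) +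
          HahnSeries.C ((p : ℂ) ^ (12 * m)) *
            qExpand ℂ p (HahnSeries.ofPowerSeries ℤ ℂ (deltaPS ^ m))) * DeltaInvQ ℂ ^ m := by
        rw [h2]; ring
    _ = Polynomial.aeval (jqModC ℂ) P *
          (HahnSeries.ofPowerSeries ℤ ℂ (deltaPS ^ m) * DeltaInvQ ℂ ^ m) := by
        rw [← h3]; ring
    _ = Polynomial.aeval (jqModC ℂ) P := by rw [h4, mul_one]

end Roots


/-! ### Laurent series with algebraic-integer coefficients -/

/-- Laurent series over `ℂ` all of whose coefficients are algebraic integers. -/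
def intCoeffSubring : Subring (LaurentSeries ℂ) where
  carrier := {x | ∀ n, IsIntegral ℤ (x.coeff n)}
  mul_mem' := by
    intro x y hx hy n
    rw [HahnSeries.coeff_mul]
    exact IsIntegral.sum _ fun ij _ => (hx _).mul (hy _)
  one_mem' := by
    intro n
    rw [HahnSeries.coeff_one]
    split_ifs
    · exact isIntegral_one
    · exact isIntegral_zero
  add_mem' := by
    intro x y hx hy n
    rw [HahnSeries.coeff_add]
    exact (hx n).add (hy n)
  zero_mem' := fun n => by rw [HahnSeries.coeff_zero]; exact isIntegral_zero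
  neg_mem' := by
    intro x hx n
    rw [HahnSeries.coeff_neg]
    exact (hx n).neg

lemma mem_intCoeffSubring {x : LaurentSeries ℂ} :
    x ∈ intCoeffSubring ↔ ∀ n, IsIntegral ℤ (x.coeff n) := Iff.rfl

lemma coeffMap_intCast_mem (x : LaurentSeries ℤ) :
    coeffMap (Int.castRingHom ℂ) x ∈ intCoeffSubring := by
  intro n
  rw [coeffMap_coeff]
  exact isIntegral_algebraMap (R := ℤ) (A := ℂ) (x := x.coeff n)

lemma twist_mem_intCoeffSubring {p : ℕ} (hp : 0 < p) {ζ : ℂˣ} (hζ : ζ ^ p = 1)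
    {x : LaurentSeries ℂ} (hx : x ∈ intCoeffSubring) : twist ζ x ∈ intCoeffSubring := by
  intro n
  rw [twist_coeff]
  refine IsIntegral.mul ?_ (hx n)
  refine IsIntegral.of_pow hp ?_
  rw [← Units.val_pow_eq_pow_val, ← zpow_natCast, ← zpow_mul, mul_comm, zpow_mul, zpow_natCast, hζ,
    one_zpow, Units.val_one]
  exact isIntegral_one

lemma qExpand_mem_intCoeffSubring (p : ℕ) [NeZero p] {x : LaurentSeries ℂ}
    (hx : x ∈ intCoeffSubring) : qExpand ℂ p x ∈ intCoeffSubring := by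
  intro n
  rw [coeff_qExpand_eq]
  split_ifs
  · exact hx _
  · exact isIntegral_zero

lemma of_qExpand_mem_intCoeffSubring (p : ℕ) [NeZero p] {x : LaurentSeries ℂ}
    (hx : qExpand ℂ p x ∈ intCoeffSubring) : x ∈ intCoeffSubring := by
  intro n
  have := hx ((p : ℤ) * n)
  rwa [qExpand_coeff_mul] at this

lemma C_natCast_mem_intCoeffSubring (c : ℕ) :
    (HahnSeries.C (c : ℂ) : LaurentSeries ℂ) ∈ intCoeffSubring := by
  intro n
  rw [HahnSeries.C_apply, HahnSeries.coeff_single]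
  split_ifs
  · exact isIntegral_algebraMap (R := ℤ) (A := ℂ) (x := (c : ℤ)) |> fun h => by simpa using h
  · exact isIntegral_zero

lemma DeltaQ_mem_intCoeffSubring : DeltaQ ℂ ∈ intCoeffSubring := by
  rw [← coeffMap_DeltaQ (Int.castRingHom ℂ)]
  exact coeffMap_intCast_mem _

lemma DeltaInvQ_mem_intCoeffSubring : DeltaInvQ ℂ ∈ intCoeffSubring := by
  rw [← coeffMap_DeltaInvQ (Int.castRingHom ℂ)]
  exact coeffMap_intCast_mem _

lemma gInf_mem_intCoeffSubring (p : ℕ) [NeZero p] : gInf ℂ p ∈ intCoeffSubring := by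
  rw [gInf]
  refine intCoeffSubring.mul_mem ?_ (intCoeffSubring.mul_mem
    (qExpand_mem_intCoeffSubring p DeltaQ_mem_intCoeffSubring) DeltaInvQ_mem_intCoeffSubring)
  have : (HahnSeries.C ((p : ℂ) ^ 12) : LaurentSeries ℂ) = HahnSeries.C ((p ^ 12 : ℕ) : ℂ) := by
    push_cast; rfl
  rw [this]
  exact C_natCast_mem_intCoeffSubring _

lemma rootFun_mem_intCoeffSubring (p : ℕ) [NeZero p] (ζ : ℂˣ) (hζ : ζ ^ p = 1)
    (o : Option (Fin p)) : rootFun p ζ o ∈ intCoeffSubring := by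
  cases o with
  | none => exact qExpand_mem_intCoeffSubring p (gInf_mem_intCoeffSubring p)
  | some b =>
    refine intCoeffSubring.mul_mem ?_ (qExpand_mem_intCoeffSubring p DeltaInvQ_mem_intCoeffSubring)
    refine twist_mem_intCoeffSubring (NeZero.pos p) ?_ DeltaQ_mem_intCoeffSubring
    rw [← pow_mul, mul_comm, pow_mul, hζ, one_pow]


lemma esymm_mem_subring {A : Type*} [CommRing A] (B : Subring A) (s : Multiset A)
    (hs : ∀ x ∈ s, x ∈ B) (k : ℕ) : s.esymm k ∈ B := by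
  rw [Multiset.esymm]
  refine B.multiset_sum_mem _ fun x hx => ?_
  obtain ⟨t, ht, rfl⟩ := Multiset.mem_map.mp hx
  refine B.multiset_prod_mem _ fun y hy => hs y ?_
  exact Multiset.mem_of_le (Multiset.mem_powersetCard.mp ht).1 hy

/-- **The modular equation of the unit, over `ℂ` with algebraic-integer coefficients.** -/
theorem exists_esymm_polys (p : ℕ) [NeZero p] (hp : p.Prime) :
    ∃ E : ℕ → Polynomial ℂ, E 0 = 1 ∧ (∀ j i, IsIntegral ℤ ((E j).coeff i)) ∧
      ∑ j ∈ Finset.range (p + 2), (-1 : LaurentSeries ℂ) ^ j *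
        (Polynomial.aeval (jqModC ℂ) (E j) * gInf ℂ p ^ (p + 1 - j)) = 0 := by
  classical
  have hζ0 : IsPrimitiveRoot (Complex.exp (2 * Real.pi * Complex.I / p)) p :=
    Complex.isPrimitiveRoot_exp p (NeZero.ne p)
  set ζ : ℂˣ := (hζ0.isUnit (NeZero.ne p)).unit with hζdef
  have hζ : IsPrimitiveRoot ζ p := by
    rw [← IsPrimitiveRoot.coe_units_iff]
    exact hζ0
  set f := rootFun p ζ with hf
  set s : Multiset (LaurentSeries ℂ) := Finset.univ.val.map f with hs
  set φ : Polynomial ℂ →+* LaurentSeries ℂ :=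
    (qExpand ℂ p).comp ((Polynomial.aeval (jqModC ℂ) : Polynomial ℂ →ₐ[ℂ] LaurentSeries ℂ) :
      Polynomial ℂ →+* LaurentSeries ℂ) with hφ
  have hφ_apply : ∀ P, φ P = qExpand ℂ p (Polynomial.aeval (jqModC ℂ) P) := fun P => rfl
  -- closure under division by naturals
  have hdiv : ∀ (n : ℕ) (x : LaurentSeries ℂ), 0 < n → (n : LaurentSeries ℂ) * x ∈ φ.range →
      x ∈ φ.range := by
    rintro n x hn ⟨P, hP⟩
    refine ⟨Polynomial.C ((n : ℂ)⁻¹) * P, ?_⟩
    have hn0 : (n : ℂ) ≠ 0 := by exact_mod_cast hn.ne'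
    have hC : φ (Polynomial.C ((n : ℂ)⁻¹)) * (n : LaurentSeries ℂ) = 1 := by
      rw [hφ_apply, Polynomial.aeval_C, algebraMap_eq_C, qExpand_C, ← map_natCast (HahnSeries.C),
        ← map_mul, inv_mul_cancel₀ hn0, map_one]
    rw [map_mul, hP, ← mul_assoc, hC, one_mul]
  have hps : ∀ j : ℕ, 0 < j → (∑ o, f o ^ j) ∈ φ.range := by
    intro j hj
    obtain ⟨P, hP⟩ := psum_rootFun p ζ hp hζ j hj
    exact ⟨P, hP.symm⟩
  have hes : ∀ k, s.esymm k ∈ φ.range := esymm_mem_of_psum_mem φ.range hdiv f hps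
  choose E hE using hes
  have hint : ∀ k, s.esymm k ∈ intCoeffSubring := by
    intro k
    refine esymm_mem_subring _ _ (fun x hx => ?_) k
    obtain ⟨o, -, rfl⟩ := Multiset.mem_map.mp hx
    exact rootFun_mem_intCoeffSubring p ζ hζ.pow_eq_one o
  have hE0 : s.esymm 0 = φ 1 := by
    rw [map_one]
    simp [Multiset.esymm]
  refine ⟨fun k => if k = 0 then 1 else E k, by simp, ?_, ?_⟩
  · intro j i
    have hmem : Polynomial.aeval (jqModC ℂ) (if j = 0 then (1 : Polynomial ℂ) else E j) ∈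
        intCoeffSubring := by
      apply of_qExpand_mem_intCoeffSubring p
      rw [← hφ_apply]
      split_ifs with hj
      · rw [← hE0]; exact hint 0
      · rw [hE j]; exact hint j
    exact coeff_mem_of_aeval_jq_coeff_mem ℂ (integralClosure ℤ ℂ).toSubring.toAddSubgroup _ _
      le_rfl hmem i
  · have hcard : Multiset.card s = p + 1 := by
      simp [hs]
    have hV := Multiset.prod_X_sub_X_eq_sum_esymm s
    have h0 : ((s.map fun t => Polynomial.X - Polynomial.C t).prod).eval (f none) = 0 := by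
      rw [Polynomial.eval_multiset_prod]
      apply Multiset.prod_eq_zero
      rw [Multiset.mem_map]
      refine ⟨Polynomial.X - Polynomial.C (f none), Multiset.mem_map.mpr ⟨f none, ?_, rfl⟩, by simp⟩
      exact Multiset.mem_map.mpr ⟨none, Finset.mem_univ_val _, rfl⟩
    rw [hV, hcard, Polynomial.eval_finsetSum] at h0
    simp only [Polynomial.eval_mul, Polynomial.eval_pow, Polynomial.eval_neg, Polynomial.eval_one,
      Polynomial.eval_C, Polynomial.eval_X] at h0
    apply qExpand_injective (R := ℂ) p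
    rw [map_zero, map_sum, ← h0]
    refine Finset.sum_congr rfl fun j _ => ?_
    rw [map_mul, map_mul, map_pow, map_pow, map_neg, map_one, ← hφ_apply]
    congr 2
    show φ (if j = 0 then 1 else E j) = s.esymm j
    split_ifs with hj
    · rw [hj, hE0]
    · rw [hE j]

end Fermat.Agent.S28lib.BrickB
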